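/-
GATE-H (S19) / node V, part VALUES (helper48; split with helper82 per ruling 4598 R2).

The VALUE / RESIDUE-DISC dictionary of a good reduction datum in the pinned vocabulary of
`GH/Vocab.lean` (`disc`, `Odisc`, `ValueAt`, `ChartPt`), abstract over `R : RedData K F k Ft`,
`H : LSpaceHyp R g c`, on top of the fibre formula `ord_red_eq_sum` of `GJ/S37/ROfSurj.lean`.

* value calculus: `valueAt_iff_ord`, `valueAt_iff_mem`, `valueAt_add/sub/mul/pow/neg`,
  `valueAt_const`, `valueAt_unique`, `valueAt_mem`, `valueAt_zero_iff`, `exists_valueAt`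
  (degree-one places);
* `res_eq_zero_iff` : `R.res a = 0 ↔ R.A.valuation a < 1`;
* `Odisc` is a subring: `odisc_add/sub/mul/pow/const`, `constRw`;
* (Z') `ord_le_ord_red` : on the disc of `Q`, `ord_P e ≤ ord_Q (red e)` for `e ∈ Odisc H Q`;
* (I)  `valueAt_mem_A` : values of `e ∈ Odisc H Q` on the disc lie in `R.A` (max modulus);
* (V)  `valueAt_red`  : evaluation commutes with reduction;
* (U)  `inv_mem_Odisc` : `e ∈ Odisc H Q`, `red e` a unit at `Q` ⟹ `e⁻¹ ∈ Odisc H Q`;
* (C)  `param_existsUnique`, `param_ord_sub`, `param_valuation_lt_one`, **`chartPt_of_param`**,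
  `chartPtOfParam`, and the `ChartPt` forms `chartPt_existsUnique`, `chartPt_ord_t_eq_one`,
  `chartPt_ord_t_eq_zero`, `chartPt_valuation_lt_one`, `chartPt_exists_valueAt`:
  a parameter identifies the disc with the maximal ideal of `R.A`.
-/
import Mathlib
import Fermat.Agent.GH.Vocab
import Fermat.Agent.S24.PlaceBasic

set_option autoImplicit false

noncomputable section

open AlgebraicCurve

namespace Fermat.Agent.GH.Disc

open Fermat.Agent.RRh45 Fermat.Agent.GJ.S37MinDiv Fermat.Agent.GJ.J1 Fermat.Agent.GJ.S37LSpace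
  Fermat.Agent.GJ.S37ROfSurj Fermat.Agent.S24 Fermat.Agent.GH

/-! ### values of functions at places -/

section Value

variable {K F : Type*} [Field K] [Field F] [Algebra K F]

/-- membership in the maximal ideal of a place, in terms of `ord`. -/
theorem mem_maximalIdeal_iff (P : Place K F) (x : F) :
    (∃ h : x ∈ P.toValuationSubring,
      (⟨x, h⟩ : P.toValuationSubring) ∈ IsLocalRing.maximalIdeal P.toValuationSubring) ↔
      x = 0 ∨ 0 < P.ord x := by
  constructor
  · rintro ⟨h, hm⟩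
    by_cases hx : x = 0
    · exact Or.inl hx
    · right
      rw [PlaceB.ord_pos_iff P hx]
      have h1 : P.adicValuation x ≤ 1 := (PlaceB.adicValuation_le_one_iff P x).mpr h
      have h2 : P.adicValuation x ≠ 1 := fun h1 =>
        hm ((P.adicValuation_coe_eq_one_iff ⟨x, h⟩).mp h1)
      exact lt_of_le_of_ne h1 h2
  · rintro (rfl | hx)
    · exact ⟨P.toValuationSubring.zero_mem, by
        rw [show (⟨0, P.toValuationSubring.zero_mem⟩ : P.toValuationSubring) = 0 from rfl]
        exact Ideal.zero_mem _⟩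
    · have hx0 : x ≠ 0 := by rintro rfl; simp at hx
      rw [PlaceB.ord_pos_iff P hx0] at hx
      have hmem : x ∈ P.toValuationSubring := (PlaceB.adicValuation_le_one_iff P x).mp hx.le
      refine ⟨hmem, ?_⟩
      rw [IsLocalRing.mem_maximalIdeal, mem_nonunits_iff]
      intro hu
      have := (P.adicValuation_coe_eq_one_iff ⟨x, hmem⟩).mpr hu
      exact hx.ne this

/-- `ValueAt` as membership in the maximal ideal of the place. -/
theorem valueAt_iff_mem (P : Place K F) (e : F) (a : K) :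
    ValueAt P e a ↔ ∃ h : e - algebraMap K F a ∈ P.toValuationSubring,
      (⟨_, h⟩ : P.toValuationSubring) ∈ IsLocalRing.maximalIdeal P.toValuationSubring := by
  unfold ValueAt
  constructor
  · intro h
    have hmem : e - algebraMap K F a ∈ P.toValuationSubring :=
      (P.toValuationSubring.valuation_le_one_iff _).mp h.le
    exact ⟨hmem, (P.toValuationSubring.valuation_lt_one_iff ⟨_, hmem⟩).mpr h⟩
  · rintro ⟨hmem, hm⟩
    exact (P.toValuationSubring.valuation_lt_one_iff ⟨_, hmem⟩).mp hm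

/-- `ValueAt` in terms of `ord`: `e = a` or `e - a` vanishes at `P`. -/
theorem valueAt_iff_ord (P : Place K F) (e : F) (a : K) :
    ValueAt P e a ↔ e - algebraMap K F a = 0 ∨ 0 < P.ord (e - algebraMap K F a) :=
  (valueAt_iff_mem P e a).trans (mem_maximalIdeal_iff P _)

theorem valueAt_mem {P : Place K F} {e : F} {a : K} (h : ValueAt P e a) :
    e ∈ P.toValuationSubring := by
  obtain ⟨h1, -⟩ := (valueAt_iff_mem P e a).mp h
  have := add_mem h1 (P.algebraMap_mem' a)
  simpa using this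

theorem valueAt_const (P : Place K F) (a : K) : ValueAt P (algebraMap K F a) a :=
  (valueAt_iff_ord P _ a).mpr (Or.inl (sub_self _))

theorem valueAt_add {P : Place K F} {e f : F} {a b : K} (he : ValueAt P e a)
    (hf : ValueAt P f b) : ValueAt P (e + f) (a + b) := by
  rw [valueAt_iff_mem] at he hf ⊢
  obtain ⟨h1, m1⟩ := he
  obtain ⟨h2, m2⟩ := hf
  have heq : e + f - algebraMap K F (a + b) = (e - algebraMap K F a) + (f - algebraMap K F b) := by
    rw [map_add]; ring
  refine ⟨by rw [heq]; exact add_mem h1 h2, ?_⟩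
  have := Ideal.add_mem _ m1 m2
  convert this using 1
  exact Subtype.ext heq

theorem valueAt_neg {P : Place K F} {e : F} {a : K} (he : ValueAt P e a) :
    ValueAt P (-e) (-a) := by
  rw [valueAt_iff_ord] at he ⊢
  rcases he with h | h
  · left; rw [map_neg, ← neg_sub', h, neg_zero]
  · right
    have : -e - algebraMap K F (-a) = -(e - algebraMap K F a) := by rw [map_neg]; ring
    rw [this, PlaceB.ord_neg]; exact h

theorem valueAt_sub {P : Place K F} {e f : F} {a b : K} (he : ValueAt P e a)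
    (hf : ValueAt P f b) : ValueAt P (e - f) (a - b) := by
  rw [sub_eq_add_neg, sub_eq_add_neg]; exact valueAt_add he (valueAt_neg hf)

theorem valueAt_mul {P : Place K F} {e f : F} {a b : K} (he : ValueAt P e a)
    (hf : ValueAt P f b) : ValueAt P (e * f) (a * b) := by
  have hfmem := valueAt_mem hf
  rw [valueAt_iff_mem] at he hf ⊢
  obtain ⟨h1, m1⟩ := he
  obtain ⟨h2, m2⟩ := hf
  have heq : e * f - algebraMap K F (a * b)
      = (e - algebraMap K F a) * f + algebraMap K F a * (f - algebraMap K F b) := by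
    rw [map_mul]; ring
  have hmem : e * f - algebraMap K F (a * b) ∈ P.toValuationSubring := by
    rw [heq]
    exact add_mem (mul_mem h1 hfmem) (mul_mem (P.algebraMap_mem' a) h2)
  refine ⟨hmem, ?_⟩
  have k1 := Ideal.mul_mem_right (⟨f, hfmem⟩ : P.toValuationSubring) _ m1
  have k2 := Ideal.mul_mem_left _ (⟨algebraMap K F a, P.algebraMap_mem' a⟩ : P.toValuationSubring) m2
  have := Ideal.add_mem _ k1 k2
  convert this using 1
  exact Subtype.ext heq

theorem valueAt_pow {P : Place K F} {e : F} {a : K} (he : ValueAt P e a) (n : ℕ) :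
    ValueAt P (e ^ n) (a ^ n) := by
  induction n with
  | zero => simpa using valueAt_const P (1 : K)
  | succ n ih => rw [pow_succ, pow_succ]; exact valueAt_mul ih he

/-- the value is unique. -/
theorem valueAt_unique {P : Place K F} {e : F} {a b : K} (ha : ValueAt P e a)
    (hb : ValueAt P e b) : a = b := by
  by_contra hne
  have h := valueAt_add (valueAt_neg hb) ha
  rw [neg_add_cancel, valueAt_iff_ord] at h
  have hc : -b + a ≠ 0 := fun h0 => hne (by linear_combination h0)
  rcases h with h | h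
  · rw [zero_sub, neg_eq_zero] at h
    exact hc ((map_eq_zero (algebraMap K F)).mp h)
  · rw [zero_sub, PlaceB.ord_neg, PlaceB.ord_algebraMap P hc] at h
    exact lt_irrefl _ h

/-- `e` has value `0` iff it vanishes at `P`. -/
theorem valueAt_zero_iff (P : Place K F) (e : F) : ValueAt P e 0 ↔ e = 0 ∨ 0 < P.ord e := by
  rw [valueAt_iff_ord, map_zero, sub_zero]

/-- at a place of degree one every regular function has a value. -/
theorem exists_valueAt {P : Place K F} (hP : P.deg = 1) {e : F}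
    (he : e ∈ P.toValuationSubring) : ∃ a : K, ValueAt P e a := by
  have h1 : Module.finrank K P.ResidueField = 1 := hP
  have h2 : (⊥ : Subalgebra K P.ResidueField) = ⊤ := Subalgebra.bot_eq_top_of_finrank_eq_one h1
  have hx : IsLocalRing.residue P.toValuationSubring ⟨e, he⟩ ∈ (⊥ : Subalgebra K P.ResidueField) := by
    rw [h2]; exact Algebra.mem_top
  obtain ⟨a, ha⟩ := Algebra.mem_bot.mp hx
  refine ⟨a, (valueAt_iff_mem P e a).mpr ⟨sub_mem he (P.algebraMap_mem' a), ?_⟩⟩
  rw [← Ideal.Quotient.eq_zero_iff_mem]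
  have : (⟨e - algebraMap K F a, sub_mem he (P.algebraMap_mem' a)⟩ :
      P.toValuationSubring) = ⟨e, he⟩ - algebraMap K P.toValuationSubring a := rfl
  rw [this, map_sub]
  have h3 : (Ideal.Quotient.mk (IsLocalRing.maximalIdeal P.toValuationSubring))
      (algebraMap K P.toValuationSubring a) = algebraMap K P.ResidueField a := rfl
  rw [h3, ha]
  exact sub_self _

end Value

/-! ### residue discs -/

section Red

variable {K F k Ft : Type*} [Field K] [Field F] [Algebra K F] [Field k] [Field Ft] [Algebra k Ft]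
variable {R : RedData K F k Ft} {g c : ℤ}

/-- the constant `a ∈ A` as an element of `Rw`. -/
def constRw (R : RedData K F k Ft) (a : R.A) : R.Rw :=
  ⟨algebraMap K F (a : K), (R.mem_A_iff a).1 a.2⟩

@[simp] theorem coe_constRw (a : R.A) : ((constRw R a : R.Rw) : F) = algebraMap K F (a : K) := rfl

@[simp] theorem red_constRw (a : R.A) : R.red (constRw R a) = algebraMap k Ft (R.res a) :=
  R.red_algebraMap a

theorem coe_ne_zero_of_red_ne_zero {y : R.Rw} (hy : R.red y ≠ 0) : (y : F) ≠ 0 :=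
  fun h => hy (by rw [show y = 0 from Subtype.ext h, map_zero])

/-- the inverse of a constant outside `A` is `w`-integral with reduction `0`. -/
theorem exists_inv_of_not_mem_A {a : K} (ha : a ∉ R.A) :
    ∃ u : R.Rw, (u : F) = (algebraMap K F a)⁻¹ ∧ R.red u = 0 := by
  have hx : algebraMap K F a ∉ R.Rw := fun h => ha ((R.mem_A_iff a).2 h)
  have hxi : (algebraMap K F a)⁻¹ ∈ R.Rw := (R.Rw.mem_or_inv_mem _).resolve_left hx
  refine ⟨⟨_, hxi⟩, rfl, ?_⟩
  rw [R.red_eq_zero_iff, IsLocalRing.mem_maximalIdeal, mem_nonunits_iff]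
  intro hunit
  obtain ⟨v, hv⟩ := hunit.exists_right_inv
  apply hx
  have h2 : (algebraMap K F a)⁻¹ * (v : F) = 1 := congrArg Subtype.val hv
  have h4 : (v : F) = algebraMap K F a := by
    have := eq_inv_of_mul_eq_one_right h2
    rw [this, inv_inv]
  rw [← h4]; exact v.2

/-- `R.res a = 0` iff `a` lies in the maximal ideal of `R.A`. -/
theorem res_eq_zero_iff (a : R.A) : R.res a = 0 ↔ R.A.valuation (a : K) < 1 := by
  rw [← R.A.valuation_lt_one_iff a, IsLocalRing.mem_maximalIdeal, mem_nonunits_iff]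
  have h1 : R.res a = 0 ↔ R.red (constRw R a) = 0 := by
    rw [red_constRw]
    exact ⟨fun h => by rw [h, map_zero], fun h => (map_eq_zero (algebraMap k Ft)).mp h⟩
  rw [h1, R.red_eq_zero_iff, IsLocalRing.mem_maximalIdeal, mem_nonunits_iff, not_iff_not]
  constructor
  · intro hu
    obtain ⟨v, hv⟩ := hu.exists_right_inv
    have h2 : algebraMap K F (a : K) * (v : F) = 1 := congrArg Subtype.val hv
    have ha0 : (a : K) ≠ 0 := by
      intro h0; rw [h0, map_zero, zero_mul] at h2; exact zero_ne_one h2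
    have hv' : (v : F) = algebraMap K F (a : K)⁻¹ := by
      rw [map_inv₀]; exact eq_inv_of_mul_eq_one_right h2
    have hmem : (a : K)⁻¹ ∈ R.A := (R.mem_A_iff _).2 (hv' ▸ v.2)
    exact isUnit_iff_exists_inv.mpr ⟨⟨_, hmem⟩, Subtype.ext (mul_inv_cancel₀ ha0)⟩
  · intro hu
    obtain ⟨b, hb⟩ := hu.exists_right_inv
    refine isUnit_iff_exists_inv.mpr ⟨constRw R b, Subtype.ext ?_⟩
    have : (a : K) * (b : K) = 1 := congrArg Subtype.val hb
    show algebraMap K F (a : K) * algebraMap K F (b : K) = 1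
    rw [← map_mul, this, map_one]

variable [FiniteResidues K F] [HasPrincipalDivisors K F] [Nonempty (Place K F)]
variable [FiniteResidues k Ft] [HasPrincipalDivisors k Ft] [Nonempty (Place k Ft)]
variable [Infinite k]

variable {H : LSpaceHyp R g c} {Q : Place k Ft}

/-! #### `Odisc` is a subring -/

theorem odisc_const (H : LSpaceHyp R g c) (Q : Place k Ft) (a : R.A) :
    algebraMap K F (a : K) ∈ Odisc H Q :=
  ⟨(R.mem_A_iff a).1 a.2, fun P _ => P.algebraMap_mem' _⟩

theorem odisc_zero (H : LSpaceHyp R g c) (Q : Place k Ft) : (0 : F) ∈ Odisc H Q :=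
  ⟨zero_mem _, fun _ _ => zero_mem _⟩

theorem odisc_one (H : LSpaceHyp R g c) (Q : Place k Ft) : (1 : F) ∈ Odisc H Q :=
  ⟨one_mem _, fun _ _ => one_mem _⟩

theorem odisc_add {e f : F} (he : e ∈ Odisc H Q) (hf : f ∈ Odisc H Q) : e + f ∈ Odisc H Q :=
  ⟨add_mem he.1 hf.1, fun P hP => add_mem (he.2 P hP) (hf.2 P hP)⟩

theorem odisc_sub {e f : F} (he : e ∈ Odisc H Q) (hf : f ∈ Odisc H Q) : e - f ∈ Odisc H Q :=
  ⟨sub_mem he.1 hf.1, fun P hP => sub_mem (he.2 P hP) (hf.2 P hP)⟩

theorem odisc_neg {e : F} (he : e ∈ Odisc H Q) : -e ∈ Odisc H Q :=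
  ⟨neg_mem he.1, fun P hP => neg_mem (he.2 P hP)⟩

theorem odisc_mul {e f : F} (he : e ∈ Odisc H Q) (hf : f ∈ Odisc H Q) : e * f ∈ Odisc H Q :=
  ⟨mul_mem he.1 hf.1, fun P hP => mul_mem (he.2 P hP) (hf.2 P hP)⟩

theorem odisc_pow {e : F} (he : e ∈ Odisc H Q) (n : ℕ) : e ^ n ∈ Odisc H Q :=
  ⟨pow_mem he.1 n, fun P hP => pow_mem (he.2 P hP) n⟩

/-! #### (Z'), (I), (V), (U) -/

/-- **(Z')** on the disc of `Q`, `ord_P e ≤ ord_Q (red e)` for `e ∈ Odisc H Q` with `red e ≠ 0`. -/
theorem ord_le_ord_red {e : F} (he : e ∈ Odisc H Q) (hred : R.red ⟨e, he.1⟩ ≠ 0)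
    {P : Place K F} (hP : P ∈ disc H Q) : P.ord e ≤ Q.ord (R.red ⟨e, he.1⟩) := by
  classical
  have hy0 : e ≠ 0 := coe_ne_zero_of_red_ne_zero (y := ⟨e, he.1⟩) hred
  obtain ⟨Dy, hDy, -⟩ := HasPrincipalDivisors.exists_divisor (K := K) e hy0
  rw [ord_red_eq_sum H (y := ⟨e, he.1⟩) hred hDy Q]
  have hnn : ∀ P' ∈ Dy.support.filter (fun P => rOf H P = Q), 0 ≤ P'.ord e := fun P' hP' =>
    (PlaceB.ord_nonneg_iff P' hy0).mpr (he.2 P' (Finset.mem_filter.mp hP').2)
  by_cases hmem : P ∈ Dy.support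
  · exact Finset.single_le_sum hnn (Finset.mem_filter.mpr ⟨hmem, hP⟩)
  · have h0 : P.ord e = 0 := by rw [← hDy P]; exact Finsupp.notMem_support_iff.mp hmem
    rw [h0]; exact Finset.sum_nonneg hnn

/-- **(I) max modulus**: values on the disc of a function of `Odisc H Q` lie in `R.A`. -/
theorem valueAt_mem_A {e : F} (he : e ∈ Odisc H Q) {P : Place K F} (hP : P ∈ disc H Q) {a : K}
    (ha : ValueAt P e a) : a ∈ R.A := by
  by_contra hA
  obtain ⟨u, hu, hured⟩ := exists_inv_of_not_mem_A (R := R) hA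
  have ha0 : a ≠ 0 := fun h => hA (by rw [h]; exact R.A.zero_mem)
  have hx0 : algebraMap K F a ≠ 0 := by simpa using ha0
  set y : R.Rw := ⟨e, he.1⟩ with hy
  set y' : R.Rw := 1 - u * y with hy'
  have hred : R.red y' = 1 := by rw [hy', map_sub, map_one, map_mul, hured, zero_mul, sub_zero]
  have hcoe : (y' : F) = -(algebraMap K F a)⁻¹ * (e - algebraMap K F a) := by
    have : (y' : F) = 1 - (u : F) * e := rfl
    rw [this, hu]; field_simp; ring
  have hmem' : (y' : F) ∈ Odisc H Q := by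
    refine ⟨y'.2, fun P' hP' => ?_⟩
    have : (y' : F) = 1 - (algebraMap K F a⁻¹) * e := by
      have h1 : (y' : F) = 1 - (u : F) * e := rfl
      rw [h1, hu, map_inv₀]
    rw [this]
    exact sub_mem (one_mem _) (mul_mem (P'.algebraMap_mem' _) (he.2 P' hP'))
  have hle := ord_le_ord_red (H := H) (Q := Q) hmem' (by
    show R.red y' ≠ 0
    rw [hred]; exact one_ne_zero) hP
  have hle' : P.ord (y' : F) ≤ Q.ord (R.red y') := hle
  rw [hred, Place.ord_one] at hle'
  rw [valueAt_iff_ord] at ha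
  rcases ha with h | h
  · apply hA
    rw [R.mem_A_iff, ← sub_eq_zero.mp h]; exact he.1
  · have hne : e - algebraMap K F a ≠ 0 := by
      intro h0; rw [h0, Place.ord_zero] at h; exact lt_irrefl _ h
    have hinv : -(algebraMap K F a)⁻¹ ≠ 0 := neg_ne_zero.mpr (inv_ne_zero hx0)
    rw [hcoe, P.ord_mul hinv hne, PlaceB.ord_neg, Place.ord_inv, PlaceB.ord_algebraMap P ha0] at hle'
    omega

/-- **(V) evaluation commutes with reduction.** -/
theorem valueAt_red {e : F} (he : e ∈ Odisc H Q) {P : Place K F} (hP : P ∈ disc H Q) {a : K}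
    (ha : ValueAt P e a) :
    ValueAt Q (R.red ⟨e, he.1⟩) (R.res ⟨a, valueAt_mem_A he hP ha⟩) := by
  have haA := valueAt_mem_A he hP ha
  set y : R.Rw := ⟨e, he.1⟩ with hy
  set z : R.Rw := y - constRw R ⟨a, haA⟩ with hz
  have hzred : R.red z = R.red y - algebraMap k Ft (R.res ⟨a, haA⟩) := by
    rw [hz, map_sub, red_constRw]
  have hzcoe : (z : F) = e - algebraMap K F a := rfl
  rw [valueAt_iff_ord]
  by_cases h0 : R.red z = 0
  · left; rw [← hzred]; exact h0
  · right
    rw [← hzred]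
    have hzmem : (z : F) ∈ Odisc H Q := by
      rw [hzcoe]; exact odisc_sub he (odisc_const H Q ⟨a, haA⟩)
    have hle : P.ord (z : F) ≤ Q.ord (R.red z) := ord_le_ord_red (H := H) (Q := Q) hzmem h0 hP
    have hz0 := coe_ne_zero_of_red_ne_zero h0
    rw [valueAt_iff_ord] at ha
    rcases ha with h | h
    · exact absurd (hzcoe ▸ h) hz0
    · rw [← hzcoe] at h; omega

/-- **(U) units**: if the reduction of `e ∈ Odisc H Q` is a unit at `Q`, then `e⁻¹ ∈ Odisc H Q`. -/
theorem inv_mem_Odisc {e : F} (he : e ∈ Odisc H Q) (hred : R.red ⟨e, he.1⟩ ≠ 0)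
    (hord : Q.ord (R.red ⟨e, he.1⟩) = 0) : e⁻¹ ∈ Odisc H Q := by
  have he0 : e ≠ 0 := coe_ne_zero_of_red_ne_zero (y := ⟨e, he.1⟩) hred
  refine ⟨?_, fun P hP => ?_⟩
  · -- `e` is a unit of `Rw`
    have hnm : (⟨e, he.1⟩ : R.Rw) ∉ IsLocalRing.maximalIdeal R.Rw := fun h =>
      hred ((R.red_eq_zero_iff _).mpr h)
    rw [IsLocalRing.mem_maximalIdeal, mem_nonunits_iff, not_not] at hnm
    obtain ⟨v, hv⟩ := hnm.exists_right_inv
    have h2 : e * (v : F) = 1 := congrArg Subtype.val hv
    rw [← eq_inv_of_mul_eq_one_right h2]; exact v.2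
  · have h1 : 0 ≤ P.ord e := (PlaceB.ord_nonneg_iff P he0).mpr (he.2 P hP)
    have h2 := ord_le_ord_red (H := H) (Q := Q) he hred hP
    rw [hord] at h2
    have h3 : P.ord e⁻¹ = 0 := by rw [Place.ord_inv]; omega
    exact (PlaceB.ord_nonneg_iff P (inv_ne_zero he0)).mp h3.ge

/-! #### (C) parameters -/

/-- values on the disc of a function in `Odisc H Q` whose reduction vanishes at `Q` lie in the
maximal ideal of `R.A`. -/
theorem valuation_lt_one_of_ord_red_pos {t : F} (ht : t ∈ Odisc H Q)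
    (hred : 0 < Q.ord (R.red ⟨t, ht.1⟩)) {P : Place K F} (hP : P ∈ disc H Q) {a : K}
    (ha : ValueAt P t a) : R.A.valuation a < 1 := by
  have h1 := valueAt_red ht hP ha
  have h2 : ValueAt Q (R.red ⟨t, ht.1⟩) 0 := (valueAt_zero_iff Q _).mpr (Or.inr hred)
  have h3 := valueAt_unique h1 h2
  exact (res_eq_zero_iff (R := R) ⟨a, valueAt_mem_A ht hP ha⟩).mp h3

/-- **(C)** for a parameter `t` (in `Odisc H Q`, reduction a uniformizer at `Q`) and `a` in the
maximal ideal of `R.A`: there is a point `P` of the disc where `t - a` has a SIMPLE zero, and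
`t - a` has no other zero on the disc. -/
theorem param_ord_sub {t : F} (ht : t ∈ Odisc H Q) (hred : Q.ord (R.red ⟨t, ht.1⟩) = 1)
    {a : K} (ha : R.A.valuation a < 1) :
    ∃ P : Place K F, P ∈ disc H Q ∧ P.ord (t - algebraMap K F a) = 1 ∧
      ∀ P' : Place K F, P' ∈ disc H Q → P' ≠ P → P'.ord (t - algebraMap K F a) = 0 := by
  classical
  have haA : a ∈ R.A := (R.A.valuation_le_one_iff a).mp ha.le
  have hres : R.res ⟨a, haA⟩ = 0 := (res_eq_zero_iff (R := R) ⟨a, haA⟩).mpr ha
  set y : R.Rw := ⟨t, ht.1⟩ with hy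
  set z : R.Rw := y - constRw R ⟨a, haA⟩ with hz
  have hzred : R.red z = R.red y := by rw [hz, map_sub, red_constRw, hres, map_zero, sub_zero]
  have hzcoe : (z : F) = t - algebraMap K F a := rfl
  have hy0red : R.red y ≠ 0 := by
    intro h; rw [h, Place.ord_zero] at hred; omega
  have hz0red : R.red z ≠ 0 := by rw [hzred]; exact hy0red
  have hz0 := coe_ne_zero_of_red_ne_zero hz0red
  have hzmem : (z : F) ∈ Odisc H Q := by
    rw [hzcoe]; exact odisc_sub ht (odisc_const H Q ⟨a, haA⟩)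
  obtain ⟨Dz, hDz, -⟩ := HasPrincipalDivisors.exists_divisor (K := K) (z : F) hz0
  have hsum := ord_red_eq_sum H hz0red hDz Q
  rw [hzred, hred] at hsum
  set S := Dz.support.filter (fun P => rOf H P = Q) with hS
  have hnn : ∀ P' ∈ S, 0 ≤ P'.ord (z : F) := fun P' hP' =>
    (PlaceB.ord_nonneg_iff P' hz0).mpr (hzmem.2 P' (Finset.mem_filter.mp hP').2)
  have hpos : ∀ P' ∈ S, 1 ≤ P'.ord (z : F) := fun P' hP' => by
    have h1 := hnn P' hP'
    have h2 : P'.ord (z : F) ≠ 0 := by
      rw [← hDz P']; exact Finsupp.mem_support_iff.mp (Finset.mem_filter.mp hP').1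
    omega
  have hne : S.Nonempty := by
    by_contra hemp
    rw [Finset.not_nonempty_iff_eq_empty] at hemp
    rw [hemp, Finset.sum_empty] at hsum
    omega
  obtain ⟨P₀, hP₀⟩ := hne
  have huniq : ∀ P' ∈ S, P' = P₀ := by
    intro P' hP'
    by_contra hne'
    have hsub : ({P₀, P'} : Finset (Place K F)) ⊆ S := by
      intro x hx
      rcases Finset.mem_insert.mp hx with rfl | hx
      · exact hP₀
      · rw [Finset.mem_singleton.mp hx]; exact hP'
    have h1 := Finset.sum_le_sum_of_subset_of_nonneg (f := fun P => P.ord (z : F)) hsub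
      (fun x hx _ => hnn x hx)
    rw [Finset.sum_pair (Ne.symm hne')] at h1
    have h2 := hpos P₀ hP₀
    have h3 := hpos P' hP'
    omega
  have hord1 : P₀.ord (z : F) = 1 := by
    have : ∑ P ∈ S, P.ord (z : F) = P₀.ord (z : F) := by
      apply Finset.sum_eq_single_of_mem P₀ hP₀
      intro b hb hbne
      exact absurd (huniq b hb) hbne
    rw [← this]; exact hsum.symm
  refine ⟨P₀, (Finset.mem_filter.mp hP₀).2, by rw [← hzcoe]; exact hord1, ?_⟩
  intro P' hP' hne'
  rw [← hzcoe]
  by_contra h0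
  have hmem : P' ∈ S := Finset.mem_filter.mpr
    ⟨Finsupp.mem_support_iff.mpr (by rw [hDz P']; exact h0), hP'⟩
  exact hne' (huniq P' hmem)

/-- **(C)** every `a` in the maximal ideal of `R.A` is the value of the parameter `t` at exactly
one point of the disc. -/
theorem param_existsUnique {t : F} (ht : t ∈ Odisc H Q) (hred : Q.ord (R.red ⟨t, ht.1⟩) = 1)
    {a : K} (ha : R.A.valuation a < 1) : ∃! P : Place K F, P ∈ disc H Q ∧ ValueAt P t a := by
  obtain ⟨P, hP, h1, h0⟩ := param_ord_sub ht hred ha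
  refine ⟨P, ⟨hP, (valueAt_iff_ord P t a).mpr (Or.inr (by rw [h1]; exact one_pos))⟩, ?_⟩
  rintro P' ⟨hP', hv⟩
  by_contra hne
  have h2 := h0 P' hP' hne
  rw [valueAt_iff_ord] at hv
  rcases hv with h | h
  · rw [h, Place.ord_zero] at h1; omega
  · omega

/-- **`chartPt_of_param`** (ruling 4598 R2): a parameter `t₀ ∈ Odisc H Q` whose reduction is a
uniformizer at `Q` has exactly one zero on the disc of `Q`. -/
theorem chartPt_of_param {t₀ : F} (ht : t₀ ∈ Odisc H Q) (hred : Q.ord (R.red ⟨t₀, ht.1⟩) = 1) :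
    ∃! P : Place K F, P ∈ disc H Q ∧ ValueAt P t₀ 0 :=
  param_existsUnique ht hred (by rw [map_zero]; exact zero_lt_one)

/-- the chart point with parameter `t₀`, centred at the unique zero of `t₀` on the disc. -/
def chartPtOfParam {t₀ : F} (ht : t₀ ∈ Odisc H Q) (hred : Q.ord (R.red ⟨t₀, ht.1⟩) = 1) :
    ChartPt H Q where
  P := (chartPt_of_param ht hred).choose
  hP := (chartPt_of_param ht hred).choose_spec.1.1
  t := t₀
  ht := ht
  ht0 := (chartPt_of_param ht hred).choose_spec.1.2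
  hred := hred

@[simp] theorem chartPtOfParam_t {t₀ : F} (ht : t₀ ∈ Odisc H Q)
    (hred : Q.ord (R.red ⟨t₀, ht.1⟩) = 1) : (chartPtOfParam ht hred).t = t₀ := rfl

/-! #### the `ChartPt` forms -/

variable (𝔭 : ChartPt H Q)

/-- every `a ∈ 𝔪_A` is the value of the parameter at exactly one point of the disc. -/
theorem chartPt_existsUnique {a : K} (ha : R.A.valuation a < 1) :
    ∃! P : Place K F, P ∈ disc H Q ∧ ValueAt P 𝔭.t a :=
  param_existsUnique 𝔭.ht 𝔭.hred ha

/-- values of the parameter on the disc lie in the maximal ideal of `R.A`. -/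
theorem chartPt_valuation_lt_one {P : Place K F} (hP : P ∈ disc H Q) {a : K}
    (ha : ValueAt P 𝔭.t a) : R.A.valuation a < 1 :=
  valuation_lt_one_of_ord_red_pos 𝔭.ht (by rw [𝔭.hred]; exact one_pos) hP ha

/-- the parameter has a value at every point of the disc. -/
theorem chartPt_exists_valueAt {P : Place K F} (hP : P ∈ disc H Q) : ∃ a : K, ValueAt P 𝔭.t a :=
  exists_valueAt (H.degF P) (𝔭.ht.2 P hP)

/-- the parameter has a simple zero at the centre. -/
theorem chartPt_ord_t_eq_one : 𝔭.P.ord 𝔭.t = 1 := by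
  obtain ⟨P, hP, h1, h0⟩ := param_ord_sub 𝔭.ht 𝔭.hred (a := 0) (by rw [map_zero]; exact zero_lt_one)
  rw [map_zero, sub_zero] at h1 h0
  by_cases hPP : 𝔭.P = P
  · rw [hPP]; exact h1
  · exfalso
    have h2 := h0 𝔭.P 𝔭.hP hPP
    have h3 := (valueAt_zero_iff 𝔭.P 𝔭.t).mp 𝔭.ht0
    rcases h3 with h | h
    · rw [h, Place.ord_zero] at h1; omega
    · omega

/-- the parameter has no zero on the disc besides the centre. -/
theorem chartPt_ord_t_eq_zero {P : Place K F} (hP : P ∈ disc H Q) (hne : P ≠ 𝔭.P) :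
    P.ord 𝔭.t = 0 := by
  obtain ⟨P₀, hP₀, h1, h0⟩ := param_ord_sub 𝔭.ht 𝔭.hred (a := 0)
    (by rw [map_zero]; exact zero_lt_one)
  rw [map_zero, sub_zero] at h1 h0
  have hc : 𝔭.P = P₀ := by
    by_contra hPP
    have h2 := h0 𝔭.P 𝔭.hP hPP
    have h3 := chartPt_ord_t_eq_one 𝔭
    omega
  exact h0 P hP (by rw [← hc]; exact hne)

theorem chartPt_t_ne_zero : 𝔭.t ≠ 0 := by
  intro h; have := chartPt_ord_t_eq_one 𝔭; rw [h, Place.ord_zero] at this; omega

end Red

end Fermat.Agent.GH.Disc
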