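/-
GATE-H (S19) node V, part 2 (helper82): TAYLOR EXPANSION WITH REMAINDER on a residue disc, in the
`GH/Vocab.lean` spelling (`disc`, `Odisc`, `ValueAt`, `ChartPt`).

Frame: `R : RedData K F k Ft`, `H : LSpaceHyp R g c`, `rOf H` the place reduction map.  Everything
below follows from the fibre formula `ord_Q (red y) = ∑_{P ↦ Q} ord_P y`
(`GJ/S37/ROfSurj.ord_red_eq_sum`) alone — no chart ring, no integral basis, no completion.

* `sum_ord_le_ord_red` (Z) : for `y ∈ Odisc H Q`, `red y ≠ 0` and a finite set `S` of places in the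
  disc, `∑_{P ∈ S} ord_P y ≤ ord_Q (red y)`;
* `valueAt_mem_A` (I) : values of `e ∈ Odisc H Q` on the disc lie in `R.A`;
* `inv_mem_Odisc` (U) : `e ∈ Odisc H Q` with `red e` a unit at `Q` is invertible in `Odisc H Q`;
* `ord_chart` : the parameter of a chart point has a simple zero at the centre and no other zero
  on the disc;
* `div_mem_Odisc` (D0) : `e ∈ Odisc H Q` vanishing at the centre is divisible by the parameter;
* `exists_taylor` (D) : `e = ∑_{i<n} c_i t^i + t^n e_n` with `c_i ∈ R.A`, `e_n ∈ Odisc H Q`, the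
  coefficient sequence `c` independent of `n`;
* `taylor_bound` (D') : `|e(P') - ∑_{i<n} c_i τ^i| ≤ |τ|^n` for every `P'` in the disc with
  `t(P') = τ` — the input shape of `GH/Closure/Device.eval_mem_const`.
-/
import Mathlib
import Fermat.Agent.GH.Vocab
import Fermat.Agent.RR.Adelic

set_option autoImplicit false

noncomputable section

open AlgebraicCurve

namespace Fermat.Agent.GH.Taylor

open Fermat.Agent.RRh45 Fermat.Agent.GJ.S37MinDiv Fermat.Agent.GJ.J1 Fermat.Agent.GJ.S37LSpace
  Fermat.Agent.GJ.S37ROfSurj Fermat.Agent.RR.Adelic Fermat.Agent.GH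

/-! ### the value at a place of degree one -/

section Value

variable {K F : Type*} [Field K] [Field F] [Algebra K F]

theorem algebraMap_residueField_bijective (P : Place K F) (h : P.deg = 1) :
    Function.Bijective (algebraMap K P.ResidueField) := by
  refine ⟨(algebraMap K P.ResidueField).injective, ?_⟩
  have h1 : Module.finrank K P.ResidueField = 1 := h
  have h2 : (⊥ : Subalgebra K P.ResidueField) = ⊤ := Subalgebra.bot_eq_top_of_finrank_eq_one h1
  intro x
  have hx : x ∈ (⊥ : Subalgebra K P.ResidueField) := by rw [h2]; exact Algebra.mem_top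
  exact Algebra.mem_bot.mp hx

/-- the value at a place of degree one, as a ring homomorphism on the valuation ring. -/
def valueHom (P : Place K F) (h : P.deg = 1) : P.toValuationSubring →+* K :=
  ((RingEquiv.ofBijective (algebraMap K P.ResidueField)
      (algebraMap_residueField_bijective P h)).symm : P.ResidueField →+* K).comp
    (IsLocalRing.residue P.toValuationSubring)

theorem algebraMap_valueHom (P : Place K F) (h : P.deg = 1) (e : P.toValuationSubring) :
    algebraMap K P.ResidueField (valueHom P h e) = IsLocalRing.residue P.toValuationSubring e := by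
  unfold valueHom
  exact (RingEquiv.ofBijective (algebraMap K P.ResidueField)
    (algebraMap_residueField_bijective P h)).apply_symm_apply _

theorem valueHom_eq_iff (P : Place K F) (h : P.deg = 1) (e : P.toValuationSubring) (a : K) :
    valueHom P h e = a ↔
      e - algebraMap K P.toValuationSubring a ∈ IsLocalRing.maximalIdeal P.toValuationSubring := by
  rw [← IsLocalRing.residue_eq_zero_iff, map_sub, sub_eq_zero, ← algebraMap_valueHom P h e]
  have : IsLocalRing.residue P.toValuationSubring (algebraMap K P.toValuationSubring a) =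
      algebraMap K P.ResidueField a := rfl
  rw [this]
  exact ⟨fun hc => by rw [hc], fun hc => (algebraMap K P.ResidueField).injective hc⟩

theorem valueHom_algebraMap (P : Place K F) (h : P.deg = 1) (a : K) :
    valueHom P h (algebraMap K P.toValuationSubring a) = a := by
  rw [valueHom_eq_iff, sub_self]
  exact Ideal.zero_mem _

/-- `ValueAt` in terms of non-units of the valuation ring. -/
theorem valueAt_iff_mem_nonunits (P : Place K F) (e : F) (a : K) :
    ValueAt P e a ↔ e - algebraMap K F a ∈ P.toValuationSubring.nonunits :=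
  (ValuationSubring.mem_nonunits_iff _).symm

theorem mem_of_valueAt {P : Place K F} {e : F} {a : K} (h : ValueAt P e a) :
    e ∈ P.toValuationSubring := by
  have h1 : e - algebraMap K F a ∈ P.toValuationSubring :=
    (P.toValuationSubring.valuation_le_one_iff _).mp (le_of_lt h)
  have h2 := add_mem h1 (P.algebraMap_mem' a)
  rwa [sub_add_cancel] at h2

/-- bridge: `ValueAt` is `valueHom`. -/
theorem valueAt_iff_valueHom (P : Place K F) (h : P.deg = 1) {e : F}
    (he : e ∈ P.toValuationSubring) (a : K) :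
    ValueAt P e a ↔ valueHom P h ⟨e, he⟩ = a := by
  rw [valueHom_eq_iff, valueAt_iff_mem_nonunits, ← ValuationSubring.coe_mem_nonunits_iff]
  rfl

theorem valueAt_valueHom (P : Place K F) (h : P.deg = 1) {e : F} (he : e ∈ P.toValuationSubring) :
    ValueAt P e (valueHom P h ⟨e, he⟩) :=
  (valueAt_iff_valueHom P h he _).mpr rfl

theorem valueAt_unique (P : Place K F) (h : P.deg = 1) {e : F} {a b : K} (ha : ValueAt P e a)
    (hb : ValueAt P e b) : a = b := by
  have he := mem_of_valueAt ha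
  rw [← (valueAt_iff_valueHom P h he a).mp ha, ← (valueAt_iff_valueHom P h he b).mp hb]

/-- `ValueAt P e 0` in terms of `ord`. -/
theorem valueAt_zero_iff (P : Place K F) (e : F) :
    ValueAt P e 0 ↔ e = 0 ∨ 1 ≤ P.ord e := by
  rw [valueAt_iff_mem_nonunits, map_zero, sub_zero]
  constructor
  · intro h
    have he : e ∈ P.toValuationSubring :=
      (P.toValuationSubring.valuation_le_one_iff _).mp
        (le_of_lt ((ValuationSubring.mem_nonunits_iff _).mp h))
    have h1 : (⟨e, he⟩ : P.toValuationSubring) ∈ IsLocalRing.maximalIdeal _ :=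
      ValuationSubring.coe_mem_nonunits_iff.mp h
    exact (mem_maximalIdeal_iff_ord P _).mp h1
  · intro h
    have he : e ∈ P.toValuationSubring := by
      rcases h with h | h
      · rw [h]; exact zero_mem _
      · exact (mem_valuationSubring_iff_ord P e).mpr (Or.inr (by omega))
    have h1 : (⟨e, he⟩ : P.toValuationSubring) ∈ IsLocalRing.maximalIdeal _ :=
      (mem_maximalIdeal_iff_ord P _).mpr h
    exact ValuationSubring.coe_mem_nonunits_iff.mpr h1

theorem ord_nonneg_of_mem (P : Place K F) {f : F} (hf : f ∈ P.toValuationSubring) :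
    0 ≤ P.ord f := by
  rcases (mem_valuationSubring_iff_ord P f).mp hf with h | h
  · rw [h, Place.ord_zero]
  · exact h

theorem mem_of_ord_nonneg (P : Place K F) {f : F} (hf : 0 ≤ P.ord f) :
    f ∈ P.toValuationSubring :=
  (mem_valuationSubring_iff_ord P f).mpr (Or.inr hf)

theorem ord_neg_one (P : Place K F) : P.ord (-1 : F) = 0 := by
  have h := P.ord_mul (f := (-1 : F)) (g := -1) (by simp) (by simp)
  rw [neg_one_mul, neg_neg, Place.ord_one] at h
  omega

end Value

/-! ### residue discs -/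

section Disc

variable {K F k Ft : Type*} [Field K] [Field F] [Algebra K F] [Field k] [Field Ft] [Algebra k Ft]
variable {R : RedData K F k Ft} {g c : ℤ}
variable [FiniteResidues K F] [HasPrincipalDivisors K F] [Nonempty (Place K F)]
variable [FiniteResidues k Ft] [HasPrincipalDivisors k Ft] [Nonempty (Place k Ft)]
variable [Infinite k]
variable {H : LSpaceHyp R g c} {Q : Place k Ft}

theorem add_mem_Odisc {e e' : F} (he : e ∈ Odisc H Q) (he' : e' ∈ Odisc H Q) :
    e + e' ∈ Odisc H Q :=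
  ⟨add_mem he.1 he'.1, fun P hP => add_mem (he.2 P hP) (he'.2 P hP)⟩

theorem sub_mem_Odisc {e e' : F} (he : e ∈ Odisc H Q) (he' : e' ∈ Odisc H Q) :
    e - e' ∈ Odisc H Q :=
  ⟨sub_mem he.1 he'.1, fun P hP => sub_mem (he.2 P hP) (he'.2 P hP)⟩

theorem mul_mem_Odisc {e e' : F} (he : e ∈ Odisc H Q) (he' : e' ∈ Odisc H Q) :
    e * e' ∈ Odisc H Q :=
  ⟨mul_mem he.1 he'.1, fun P hP => mul_mem (he.2 P hP) (he'.2 P hP)⟩

theorem one_mem_Odisc : (1 : F) ∈ Odisc H Q := ⟨one_mem _, fun _ _ => one_mem _⟩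

theorem algebraMap_mem_Odisc {a : K} (ha : a ∈ R.A) : algebraMap K F a ∈ Odisc H Q :=
  ⟨(R.mem_A_iff a).1 ha, fun P _ => P.algebraMap_mem' a⟩

theorem pow_mem_Odisc {e : F} (he : e ∈ Odisc H Q) (n : ℕ) : e ^ n ∈ Odisc H Q :=
  ⟨pow_mem he.1 n, fun P hP => pow_mem (he.2 P hP) n⟩

/-- **(Z)** fibre formula, disc form: for `y ∈ Odisc H Q` with `red y ≠ 0` and a finite set `S` of
places of the disc, `∑_{P ∈ S} ord_P y ≤ ord_Q (red y)`. -/
theorem sum_ord_le_ord_red {y : F} (hy : y ∈ Odisc H Q) (hred : R.red ⟨y, hy.1⟩ ≠ 0)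
    (S : Finset (Place K F)) (hS : ∀ P ∈ S, P ∈ disc H Q) :
    ∑ P ∈ S, P.ord y ≤ Q.ord (R.red ⟨y, hy.1⟩) := by
  classical
  have hy0 : y ≠ 0 := fun h => hred (by
    rw [show (⟨y, hy.1⟩ : R.Rw) = 0 from Subtype.ext h, map_zero])
  obtain ⟨Dy, hDy, -⟩ := HasPrincipalDivisors.exists_divisor (K := K) y hy0
  rw [ord_red_eq_sum H (y := ⟨y, hy.1⟩) hred hDy Q]
  have hnn : ∀ P' ∈ Dy.support.filter (fun P' => rOf H P' = Q), 0 ≤ P'.ord y := fun P' hP' =>
    ord_nonneg_of_mem P' (hy.2 P' (Finset.mem_filter.mp hP').2)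
  have h1 : ∑ P ∈ S, P.ord y = ∑ P ∈ S.filter (fun P => P ∈ Dy.support), P.ord y := by
    rw [Finset.sum_filter]
    refine Finset.sum_congr rfl fun P _ => ?_
    split_ifs with h
    · rfl
    · rw [Finsupp.mem_support_iff, not_not, hDy P] at h
      exact h
  rw [h1]
  refine Finset.sum_le_sum_of_subset_of_nonneg ?_ fun P hP _ => hnn P hP
  intro P hP
  rw [Finset.mem_filter] at hP ⊢
  exact ⟨hP.2, hS P hP.1⟩

theorem ord_le_ord_red {y : F} (hy : y ∈ Odisc H Q) (hred : R.red ⟨y, hy.1⟩ ≠ 0)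
    {P : Place K F} (hP : P ∈ disc H Q) : P.ord y ≤ Q.ord (R.red ⟨y, hy.1⟩) := by
  have := sum_ord_le_ord_red hy hred {P} (fun P' hP' => by
    rw [Finset.mem_singleton] at hP'; rw [hP']; exact hP)
  simpa using this

/-- **(I)** the values of `e ∈ Odisc H Q` on the disc of `Q` lie in the valuation ring `R.A`. -/
theorem valueAt_mem_A {e : F} (he : e ∈ Odisc H Q) {P : Place K F} (hP : P ∈ disc H Q) {a : K}
    (hea : ValueAt P e a) : a ∈ R.A := by
  by_contra haA
  have ha0 : a ≠ 0 := fun h => haA (h ▸ R.A.zero_mem)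
  have hai : a⁻¹ ∈ R.A := (R.A.mem_or_inv_mem a).resolve_left haA
  have haiRw : algebraMap K F a⁻¹ ∈ R.Rw := (R.mem_A_iff _).1 hai
  have hne : algebraMap K F a ≠ 0 := by
    rw [Ne, map_eq_zero]; exact ha0
  -- `a⁻¹` is a non-unit of `Rw`
  have hmax : (⟨algebraMap K F a⁻¹, haiRw⟩ : R.Rw) ∈ IsLocalRing.maximalIdeal R.Rw := by
    rw [IsLocalRing.mem_maximalIdeal, mem_nonunits_iff]
    intro hu
    obtain ⟨u, hu⟩ := hu
    apply haA
    rw [R.mem_A_iff]
    have h1 : ((u⁻¹ : R.Rwˣ) : R.Rw) * ⟨algebraMap K F a⁻¹, haiRw⟩ = 1 := by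
      rw [← hu]; exact Units.inv_mul u
    have h2 : (((u⁻¹ : R.Rwˣ) : R.Rw) : F) * algebraMap K F a⁻¹ = 1 := by
      have := congrArg Subtype.val h1
      simpa using this
    have h3 : (((u⁻¹ : R.Rwˣ) : R.Rw) : F) = algebraMap K F a := by
      rw [map_inv₀] at h2
      field_simp at h2
      exact h2
    rw [← h3]
    exact Subtype.mem _
  -- the function `f = e / a - 1`
  set f : F := e * algebraMap K F a⁻¹ - 1 with hf
  have hfD : f ∈ Odisc H Q := sub_mem_Odisc (mul_mem_Odisc he (algebraMap_mem_Odisc hai)) one_mem_Odisc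
  have hfred : R.red ⟨f, hfD.1⟩ = -1 := by
    have h1 : (⟨f, hfD.1⟩ : R.Rw) = ⟨e, he.1⟩ * ⟨algebraMap K F a⁻¹, haiRw⟩ - 1 := rfl
    rw [h1, map_sub, map_mul, map_one, (R.red_eq_zero_iff _).2 hmax, mul_zero, zero_sub]
  have hfred0 : R.red ⟨f, hfD.1⟩ ≠ 0 := by rw [hfred]; simp
  have h1 := ord_le_ord_red hfD hfred0 hP
  rw [hfred, ord_neg_one] at h1
  -- but `f` vanishes at `P`
  have hf0 : f ≠ 0 := fun h => hfred0 (by
    rw [show (⟨f, hfD.1⟩ : R.Rw) = 0 from Subtype.ext h, map_zero])
  have hfP : ValueAt P f 0 := by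
    rw [valueAt_iff_mem_nonunits, map_zero, sub_zero]
    have h2 : f = (e - algebraMap K F a) * algebraMap K F a⁻¹ := by
      rw [hf, map_inv₀]; field_simp
    rw [h2, ValuationSubring.mem_nonunits_iff, map_mul]
    have hx := (ValuationSubring.mem_nonunits_iff _).mp ((valueAt_iff_mem_nonunits P e a).mp hea)
    have hy := (P.toValuationSubring.valuation_le_one_iff _).mpr (P.algebraMap_mem' a⁻¹)
    exact (mul_le_of_le_one_right' hy).trans_lt hx
  rcases (valueAt_zero_iff P f).mp hfP with h | h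
  · exact hf0 h
  · omega

/-- **(U)** `e ∈ Odisc H Q` whose reduction is a unit at `Q` is invertible in `Odisc H Q`. -/
theorem inv_mem_Odisc {e : F} (he : e ∈ Odisc H Q) (hred0 : R.red ⟨e, he.1⟩ ≠ 0)
    (hordQ : Q.ord (R.red ⟨e, he.1⟩) = 0) : e⁻¹ ∈ Odisc H Q := by
  refine ⟨?_, fun P hP => ?_⟩
  · have hnm : (⟨e, he.1⟩ : R.Rw) ∉ IsLocalRing.maximalIdeal R.Rw := fun h =>
      hred0 ((R.red_eq_zero_iff _).2 h)
    rw [IsLocalRing.mem_maximalIdeal, mem_nonunits_iff, not_not] at hnm
    obtain ⟨u, hu⟩ := hnm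
    have h1 : (((u⁻¹ : R.Rwˣ) : R.Rw) : F) * e = 1 := by
      have h2 : ((u⁻¹ : R.Rwˣ) : R.Rw) * ⟨e, he.1⟩ = 1 := by rw [← hu]; exact Units.inv_mul u
      have := congrArg Subtype.val h2
      simpa using this
    have h3 : e⁻¹ = (((u⁻¹ : R.Rwˣ) : R.Rw) : F) := (eq_inv_of_mul_eq_one_left h1).symm
    rw [h3]
    exact Subtype.mem _
  · have h1 := ord_le_ord_red he hred0 hP
    have h2 := ord_nonneg_of_mem P (he.2 P hP)
    apply mem_of_ord_nonneg
    rw [Place.ord_inv]
    omega

/-! ### the parameter of a chart point -/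

variable (pt : ChartPt H Q)

theorem red_t_ne_zero : R.red ⟨pt.t, pt.ht.1⟩ ≠ 0 := by
  intro h
  have := pt.hred
  rw [h, Place.ord_zero] at this
  omega

theorem t_ne_zero : pt.t ≠ 0 := fun h => red_t_ne_zero pt (by
  rw [show (⟨pt.t, pt.ht.1⟩ : R.Rw) = 0 from Subtype.ext h, map_zero])

/-- the parameter of a chart point has a simple zero at the centre and no other zero on the
disc. -/
theorem ord_chart :
    pt.P.ord pt.t = 1 ∧ ∀ P' ∈ disc H Q, P' ≠ pt.P → P'.ord pt.t = 0 := by
  classical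
  have h1 : 1 ≤ pt.P.ord pt.t := by
    rcases (valueAt_zero_iff pt.P pt.t).mp pt.ht0 with h | h
    · exact absurd h (t_ne_zero pt)
    · exact h
  have h2 := ord_le_ord_red pt.ht (red_t_ne_zero pt) pt.hP
  rw [pt.hred] at h2
  refine ⟨le_antisymm h2 h1, fun P' hP' hne => ?_⟩
  have h3 := sum_ord_le_ord_red pt.ht (red_t_ne_zero pt) {pt.P, P'} (fun P hP => by
    rw [Finset.mem_insert, Finset.mem_singleton] at hP
    rcases hP with rfl | rfl
    · exact pt.hP
    · exact hP')
  rw [Finset.sum_pair hne.symm, pt.hred] at h3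
  have h4 := ord_nonneg_of_mem P' (pt.ht.2 P' hP')
  omega

theorem inv_t_mem_Rw : pt.t⁻¹ ∈ R.Rw := by
  have hnm : (⟨pt.t, pt.ht.1⟩ : R.Rw) ∉ IsLocalRing.maximalIdeal R.Rw := fun h =>
    red_t_ne_zero pt ((R.red_eq_zero_iff _).2 h)
  rw [IsLocalRing.mem_maximalIdeal, mem_nonunits_iff, not_not] at hnm
  obtain ⟨u, hu⟩ := hnm
  have h1 : (((u⁻¹ : R.Rwˣ) : R.Rw) : F) * pt.t = 1 := by
    have h2 : ((u⁻¹ : R.Rwˣ) : R.Rw) * ⟨pt.t, pt.ht.1⟩ = 1 := by rw [← hu]; exact Units.inv_mul u
    have := congrArg Subtype.val h2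
    simpa using this
  have h3 : pt.t⁻¹ = (((u⁻¹ : R.Rwˣ) : R.Rw) : F) := (eq_inv_of_mul_eq_one_left h1).symm
  rw [h3]
  exact Subtype.mem _

/-- **(D0)** an element of `Odisc H Q` vanishing at the centre is divisible by the parameter. -/
theorem div_mem_Odisc {e : F} (he : e ∈ Odisc H Q) (he0 : ValueAt pt.P e 0) :
    e / pt.t ∈ Odisc H Q := by
  rw [div_eq_mul_inv]
  refine ⟨mul_mem he.1 (inv_t_mem_Rw pt), fun P' hP' => ?_⟩
  by_cases hPP : P' = pt.P
  · subst hPP
    rcases (valueAt_zero_iff pt.P e).mp he0 with h | h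
    · rw [h, zero_mul]; exact zero_mem _
    · by_cases he' : e = 0
      · rw [he', zero_mul]; exact zero_mem _
      apply mem_of_ord_nonneg
      rw [Place.ord_mul _ he' (inv_ne_zero (t_ne_zero pt)), Place.ord_inv, (ord_chart pt).1]
      omega
  · refine mul_mem (he.2 P' hP') (mem_of_ord_nonneg P' ?_)
    rw [Place.ord_inv, (ord_chart pt).2 P' hP' hPP]
    simp

/-! ### Taylor expansion with remainder -/

/-- the value at the centre (junk `0` if `e` has a pole there). -/
def centreValue (e : F) : K :=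
  open Classical in
  if h : e ∈ pt.P.toValuationSubring then valueHom pt.P (H.degF pt.P) ⟨e, h⟩ else 0

theorem valueAt_centreValue {e : F} (he : e ∈ Odisc H Q) :
    ValueAt pt.P e (centreValue pt e) := by
  unfold centreValue
  rw [dif_pos (he.2 pt.P pt.hP)]
  exact valueAt_valueHom pt.P (H.degF pt.P) _

theorem centreValue_mem_A {e : F} (he : e ∈ Odisc H Q) : centreValue pt e ∈ R.A :=
  valueAt_mem_A he pt.hP (valueAt_centreValue pt he)

/-- the sequence of Taylor remainders `e_0 = e`, `e_{n+1} = (e_n - e_n(P)) / t`. -/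
def taylorRem (e : F) : ℕ → F
  | 0 => e
  | n + 1 => (taylorRem e n - algebraMap K F (centreValue pt (taylorRem e n))) / pt.t

/-- the Taylor coefficients `c_n = e_n(P)`. -/
def taylorCoeff (e : F) (n : ℕ) : K := centreValue pt (taylorRem pt e n)

theorem taylorRem_mem_Odisc {e : F} (he : e ∈ Odisc H Q) (n : ℕ) :
    taylorRem pt e n ∈ Odisc H Q := by
  induction n with
  | zero => exact he
  | succ n ih =>
    show (taylorRem pt e n - algebraMap K F (centreValue pt (taylorRem pt e n))) / pt.t ∈ Odisc H Q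
    refine div_mem_Odisc pt (sub_mem_Odisc ih (algebraMap_mem_Odisc (centreValue_mem_A pt ih))) ?_
    have h1 := valueAt_centreValue pt ih
    unfold ValueAt at h1 ⊢
    rwa [map_zero, sub_zero]

theorem taylorCoeff_mem_A {e : F} (he : e ∈ Odisc H Q) (n : ℕ) : taylorCoeff pt e n ∈ R.A :=
  centreValue_mem_A pt (taylorRem_mem_Odisc pt he n)

/-- **(D)** Taylor expansion with remainder (no hypothesis needed for the identity itself). -/
theorem taylor_eq (e : F) (n : ℕ) :
    e = ∑ i ∈ Finset.range n, algebraMap K F (taylorCoeff pt e i) * pt.t ^ i +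
      pt.t ^ n * taylorRem pt e n := by
  induction n with
  | zero => simp [taylorRem]
  | succ n ih =>
    have ht := t_ne_zero pt
    have h1 : taylorRem pt e (n + 1) =
        (taylorRem pt e n - algebraMap K F (taylorCoeff pt e n)) / pt.t := rfl
    rw [Finset.sum_range_succ, h1]
    conv_lhs => rw [ih]
    field_simp
    ring

/-- **(D)**, existential form. -/
theorem exists_taylor {e : F} (he : e ∈ Odisc H Q) (n : ℕ) :
    ∃ (c : ℕ → K) (eₙ : F), (∀ i, c i ∈ R.A) ∧ eₙ ∈ Odisc H Q ∧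
      e = ∑ i ∈ Finset.range n, algebraMap K F (c i) * pt.t ^ i + pt.t ^ n * eₙ :=
  ⟨taylorCoeff pt e, taylorRem pt e n, taylorCoeff_mem_A pt he, taylorRem_mem_Odisc pt he n,
    taylor_eq pt e n⟩

/-- **(D')** the Taylor bound on the whole disc: if `t(P') = τ` and `e(P') = φ` then
`|φ - ∑_{i<n} c_i τ^i| ≤ |τ|^n`, with coefficients `c_i ∈ R.A` independent of `n` and `P'`. -/
theorem taylor_bound {e : F} (he : e ∈ Odisc H Q) (n : ℕ) {P' : Place K F} (hP' : P' ∈ disc H Q)
    {τ φ : K} (hτ : ValueAt P' pt.t τ) (hφ : ValueAt P' e φ) :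
    R.A.valuation (φ - ∑ i ∈ Finset.range n, taylorCoeff pt e i * τ ^ i) ≤ R.A.valuation τ ^ n := by
  have hdeg := H.degF P'
  have hen := taylorRem_mem_Odisc pt he n
  set a : K := valueHom P' hdeg ⟨taylorRem pt e n, hen.2 P' hP'⟩ with ha
  have haA : a ∈ R.A := valueAt_mem_A hen hP' (valueAt_valueHom P' hdeg _)
  -- evaluate the Taylor identity at `P'`
  have htm := pt.ht.2 P' hP'
  have hem := he.2 P' hP'
  have hτ' : valueHom P' hdeg ⟨pt.t, htm⟩ = τ := (valueAt_iff_valueHom P' hdeg htm τ).mp hτ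
  have hφ' : valueHom P' hdeg ⟨e, hem⟩ = φ := (valueAt_iff_valueHom P' hdeg hem φ).mp hφ
  have key : (⟨e, hem⟩ : P'.toValuationSubring) =
      ∑ i ∈ Finset.range n, algebraMap K P'.toValuationSubring (taylorCoeff pt e i) *
        (⟨pt.t, htm⟩ : P'.toValuationSubring) ^ i +
      (⟨pt.t, htm⟩ : P'.toValuationSubring) ^ n * ⟨taylorRem pt e n, hen.2 P' hP'⟩ := by
    apply Subtype.ext
    push_cast
    exact taylor_eq pt e n
  have h1 := congrArg (valueHom P' hdeg) key
  rw [hφ', map_add, map_sum, map_mul, map_pow, hτ', ← ha] at h1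
  simp only [map_mul, map_pow, valueHom_algebraMap, hτ'] at h1
  rw [h1, add_sub_cancel_left, map_mul, map_pow]
  calc R.A.valuation τ ^ n * R.A.valuation a ≤ R.A.valuation τ ^ n * 1 := by
        gcongr
        exact (R.A.valuation_le_one_iff a).mpr haA
    _ = R.A.valuation τ ^ n := mul_one _

end Disc

end Fermat.Agent.GH.Taylor
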