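/-
GATE-H (S19) node V → node A plug (helper82): functions of the form `z ↦ e(P_z)` with
`e ∈ Odisc H Q` and `P_z` moving in the disc of `Q` lie in every closure-device algebra `B`
containing the coordinate function `z ↦ t(P_z)`.

`eval_mem_of_Odisc` = `GH/Disc/Taylor.taylor_bound` fed into `GH/Closure/Device.eval_mem_const`.
-/
import Mathlib
import Fermat.Agent.GH.Disc.Taylor
import Fermat.Agent.GH.Disc.Values
import Fermat.Agent.GH.Closure.Device

set_option autoImplicit false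

noncomputable section

open AlgebraicCurve

namespace Fermat.Agent.GH.Taylor

open Fermat.Agent.RRh45 Fermat.Agent.GJ.S37MinDiv Fermat.Agent.GJ.J1 Fermat.Agent.GJ.S37LSpace
  Fermat.Agent.GJ.S37ROfSurj Fermat.Agent.GH

variable {K F k Ft : Type*} [Field K] [Field F] [Algebra K F] [Field k] [Field Ft] [Algebra k Ft]
variable {R : RedData K F k Ft} {g c : ℤ}
variable [FiniteResidues K F] [HasPrincipalDivisors K F] [Nonempty (Place K F)]
variable [FiniteResidues k Ft] [HasPrincipalDivisors k Ft] [Nonempty (Place k Ft)]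
variable [Infinite k]
variable {H : LSpaceHyp R g c} {Q : Place k Ft}

/-- **V → A plug.**  `B` an `R.A`-algebra of `R.A`-valued functions on a finite set `Z` separating
points; `P z` a point of the disc of `Q` for every `z`; `τ z = t(P z)` the coordinate function,
assumed in `B`; `φ z = e(P z)` for some `e ∈ Odisc H Q`.  Then `φ ∈ B`. -/
theorem eval_mem_of_Odisc {Z : Type*} [Finite Z] (B : Subalgebra R.A (Z → K))
    (hval : ∀ f ∈ B, ∀ z, f z ∈ R.A)
    (hsep : ∀ z z', z ≠ z' → ∃ f ∈ B, f z ≠ f z')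
    (harch : ∀ x y : K, R.A.valuation x < 1 → y ≠ 0 →
      ∃ n : ℕ, R.A.valuation x ^ n ≤ R.A.valuation y)
    (pt : ChartPt H Q) {e : F} (he : e ∈ Odisc H Q) (P : Z → Place K F)
    (hP : ∀ z, P z ∈ disc H Q) {τ φ : Z → K} (hτB : τ ∈ B)
    (hτ : ∀ z, ValueAt (P z) pt.t (τ z)) (hφ : ∀ z, ValueAt (P z) e (φ z)) : φ ∈ B := by
  refine Fermat.Agent.GH.Closure.eval_mem_const R.A B hval hsep harch hτB
    (fun z => Fermat.Agent.GH.Disc.chartPt_valuation_lt_one pt (hP z) (hτ z)) (fun n => ?_)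
  exact ⟨taylorCoeff pt e, taylorCoeff_mem_A pt he,
    fun z => taylor_bound pt he n (hP z) (hτ z) (hφ z)⟩

/-- the same for a unit-valued denominator: `z ↦ (e / b)(P_z)` with `b ∈ Odisc H Q` whose
reduction is a unit at `Q`. -/
theorem eval_div_mem_of_Odisc {Z : Type*} [Finite Z] (B : Subalgebra R.A (Z → K))
    (hval : ∀ f ∈ B, ∀ z, f z ∈ R.A)
    (hsep : ∀ z z', z ≠ z' → ∃ f ∈ B, f z ≠ f z')
    (harch : ∀ x y : K, R.A.valuation x < 1 → y ≠ 0 →
      ∃ n : ℕ, R.A.valuation x ^ n ≤ R.A.valuation y)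
    (pt : ChartPt H Q) {e b : F} (he : e ∈ Odisc H Q) (hb : b ∈ Odisc H Q)
    (hbred : R.red ⟨b, hb.1⟩ ≠ 0) (hbQ : Q.ord (R.red ⟨b, hb.1⟩) = 0)
    (P : Z → Place K F) (hP : ∀ z, P z ∈ disc H Q) {τ φ : Z → K} (hτB : τ ∈ B)
    (hτ : ∀ z, ValueAt (P z) pt.t (τ z)) (hφ : ∀ z, ValueAt (P z) (e / b) (φ z)) : φ ∈ B := by
  have hdiv : e / b ∈ Odisc H Q := by
    rw [div_eq_mul_inv]
    exact mul_mem_Odisc he (inv_mem_Odisc hb hbred hbQ)
  exact eval_mem_of_Odisc B hval hsep harch pt hdiv P hP hτB hτ hφ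

end Fermat.Agent.GH.Taylor
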